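import Fermat.Statements.S49
import Fermat.Prelude.Def_CuspForm_HeckeAlgebra
import Fermat.Prelude.Def_CuspForm_IntegralStructure
import Fermat.Prelude.Thm_CuspForm_intLattice_fg
import Fermat.Prelude.Thm_CuspForm_mem_intLattice_of_mem_heckeAlgebra
import Fermat.Prelude.Thm_ModularFormClass_qCoeff_heckeT
import Fermat.Prelude.Thm_ModularFormClass_qCoeff_heckeU
import Fermat.Prelude.Thm_CongruenceSubgroup_one_mem_strictPeriods_Gamma0

set_option autoImplicit false

namespace Fermat.Agent.S49Lib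

open CongruenceSubgroup ModularFormClass UpperHalfPlane

variable {N : ℕ}

theorem qCoeff_add (f g : CuspForm (Gamma0 N) 2) (n : ℕ) :
    qCoeff (⇑(f + g)) n = qCoeff f n + qCoeff g n := by
  unfold qCoeff
  rw [FunLike.coe_add, ModularForm.qExpansion_add one_pos (one_mem_strictPeriods_Gamma0 N) f g]
  simp

theorem qCoeff_smul (c : ℂ) (f : CuspForm (Gamma0 N) 2) (n : ℕ) :
    qCoeff (⇑(c • f)) n = c * qCoeff f n := by
  unfold qCoeff
  rw [FunLike.coe_smul,
    ModularForm.qExpansion_smul one_pos (one_mem_strictPeriods_Gamma0 N) c f]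
  simp

/-- The `n`-th `q`-coefficient as a linear functional. -/
noncomputable def qCoeffLin (N n : ℕ) : CuspForm (Gamma0 N) 2 →ₗ[ℂ] ℂ where
  toFun f := qCoeff f n
  map_add' f g := qCoeff_add f g n
  map_smul' c f := qCoeff_smul c f n

@[simp] theorem qCoeffLin_apply (n : ℕ) (f : CuspForm (Gamma0 N) 2) :
    qCoeffLin N n f = qCoeff f n := rfl

theorem qCoeff_zero_idx (f : CuspForm (Gamma0 N) 2) : qCoeff f 0 = 0 :=
  CuspFormClass.qExpansion_coeff_zero f one_pos (one_mem_strictPeriods_Gamma0 N)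

theorem eq_zero_of_qCoeff (f : CuspForm (Gamma0 N) 2) (h : ∀ n, qCoeff f n = 0) : f = 0 := by
  have hΓ := one_mem_strictPeriods_Gamma0 N
  have : Fact (IsCusp OnePoint.infty
      (Subgroup.map (Matrix.SpecialLinearGroup.mapGL ℝ) (Gamma0 N))) :=
    ⟨Subgroup.isCusp_of_mem_strictPeriods one_pos hΓ⟩
  have hq : qExpansion 1 f = 0 := by
    ext n
    simpa [qCoeff] using h n
  have := (UpperHalfPlane.qExpansion_eq_zero_iff one_pos (SlashInvariantFormClass.periodic_comp_ofComplex f hΓ)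
    (ModularFormClass.holo f) (ModularFormClass.bdd_at_infty f)).1 hq
  exact DFunLike.coe_injective this

theorem qCoeff_heckeTLin {p : ℕ} (hp : p.Prime) (hpN : ¬ p ∣ N) (f : CuspForm (Gamma0 N) 2)
    (n : ℕ) :
    qCoeff (CuspForm.heckeTLin 2 hp hpN f) n =
      qCoeff f (p * n) + (p : ℂ) * (if p ∣ n then qCoeff f (n / p) else 0) := by
  rw [CuspForm.coe_heckeTLin_apply,
    ModularFormClass.qCoeff_heckeT f (one_mem_strictPeriods_Gamma0 N) hp.ne_zero n,
    ModularForm.coeffHeckeT_apply, mul_comm n p]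
  split_ifs <;> simp

theorem qCoeff_heckeULin [NeZero N] {p : ℕ} (hp : p.Prime) (hpN : p ∣ N)
    (f : CuspForm (Gamma0 N) 2) (n : ℕ) :
    qCoeff (CuspForm.heckeULin 2 hpN f) n = qCoeff f (p * n) := by
  rw [CuspForm.coe_heckeULin_apply,
    ModularFormClass.qCoeff_heckeU f (one_mem_strictPeriods_Gamma0 N) hp.ne_zero n,
    ModularForm.coeffHeckeU_apply, mul_comm n p]

/-- The lattice of forms with integral `q`-expansion. -/
def intSub (N : ℕ) : Submodule ℤ (CuspForm (Gamma0 N) 2) where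
  carrier := {f | ∀ n : ℕ, ∃ m : ℤ, qCoeff f n = (m : ℂ)}
  add_mem' := by
    intro f g hf hg n
    obtain ⟨a, ha⟩ := hf n
    obtain ⟨b, hb⟩ := hg n
    exact ⟨a + b, by rw [qCoeff_add, ha, hb]; push_cast; ring⟩
  zero_mem' := by
    intro n
    exact ⟨0, by simpa using (qCoeffLin N n).map_zero⟩
  smul_mem' := by
    intro c f hf n
    obtain ⟨a, ha⟩ := hf n
    refine ⟨c * a, ?_⟩
    have : c • f = (c : ℂ) • f := by
      rw [Int.cast_smul_eq_zsmul]
    rw [this, qCoeff_smul, ha]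
    push_cast; ring

theorem mem_intSub {f : CuspForm (Gamma0 N) 2} :
    f ∈ intSub N ↔ ∀ n : ℕ, ∃ m : ℤ, qCoeff f n = (m : ℂ) := Iff.rfl

theorem intLattice_eq_intSub (N : ℕ) : CuspForm.intLattice N 2 = intSub N := by
  unfold CuspForm.intLattice
  exact Submodule.span_eq (intSub N)

theorem qIntegralSet_eq_intSub (N : ℕ) :
    CuspForm.qIntegralSet N = (intSub N : Set (CuspForm (Gamma0 N) 2)) := by
  ext f
  simp only [CuspForm.qIntegralSet, Set.mem_ofPred_eq, SetLike.mem_coe, mem_intSub,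
    Subring.mem_bot]
  constructor
  · intro h n
    obtain ⟨m, hm⟩ := h n
    exact ⟨m, hm.symm⟩
  · intro h n
    obtain ⟨m, hm⟩ := h n
    exact ⟨m, hm.symm⟩

theorem intSub_fg (N : ℕ) [NeZero N] : (intSub N).FG := by
  rw [← intLattice_eq_intSub]
  exact CuspForm.intLattice_fg N 2

theorem hecke_mem_intSub [NeZero N] {t : Module.End ℂ (CuspForm (Gamma0 N) 2)}
    (ht : t ∈ CuspForm.heckeAlgebra N 2 ∅) {f : CuspForm (Gamma0 N) 2} (hf : f ∈ intSub N) :
    t f ∈ intSub N := by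
  rw [← intLattice_eq_intSub] at hf ⊢
  exact CuspForm.mem_intLattice_of_mem_heckeAlgebra (by norm_num) ht hf

/-- A form all of whose coefficients are integers divisible by `3` is `3` times an integral
form. -/
theorem exists_eq_three_smul {f : CuspForm (Gamma0 N) 2}
    (hf : ∀ n : ℕ, ∃ m : ℤ, qCoeff f n = ((3 * m : ℤ) : ℂ)) :
    ∃ g ∈ intSub N, f = (3 : ℂ) • g := by
  refine ⟨(3 : ℂ)⁻¹ • f, ?_, ?_⟩
  · intro n
    obtain ⟨m, hm⟩ := hf n
    refine ⟨m, ?_⟩
    rw [qCoeff_smul, hm]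
    push_cast
    field_simp
  · rw [smul_smul]
    norm_num

theorem finiteDimensional_of_hasIntegralBasis [NeZero N] (h : CuspForm.HasIntegralBasis N) :
    FiniteDimensional ℂ (CuspForm (Gamma0 N) 2) := by
  obtain ⟨s, hs⟩ := intSub_fg N
  refine Module.finite_def.2 ⟨s, ?_⟩
  unfold CuspForm.HasIntegralBasis at h
  rw [qIntegralSet_eq_intSub, ← hs, Submodule.span_span_of_tower] at h
  exact h

end Fermat.Agent.S49Lib
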