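import Mathlib

set_option autoImplicit false

namespace Fermat.Agent.S49Lib

open Module

/-- A commuting family of endomorphisms stabilising a nonzero subspace of a finite dimensional
complex vector space has a common eigenvector in it. -/
theorem exists_common_eigenvector {V : Type*} [AddCommGroup V] [Module ℂ V]
    [FiniteDimensional ℂ V] (S : Set (Module.End ℂ V))
    (hcomm : ∀ s ∈ S, ∀ t ∈ S, Commute s t) :
    ∀ (n : ℕ) (W : Submodule ℂ V), finrank ℂ W = n → W ≠ ⊥ →
      (∀ t ∈ S, ∀ w ∈ W, t w ∈ W) →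
      ∃ v ∈ W, v ≠ 0 ∧ ∀ t ∈ S, ∃ c : ℂ, t v = c • v := by
  intro n
  induction n using Nat.strong_induction_on with
  | _ n ih =>
    intro W hn hW hstab
    by_cases hsc : ∀ t ∈ S, ∃ c : ℂ, ∀ w ∈ W, t w = c • w
    · obtain ⟨v, hvW, hv0⟩ := Submodule.exists_mem_ne_zero_of_ne_bot hW
      exact ⟨v, hvW, hv0, fun t ht => (hsc t ht).imp fun c hc => hc v hvW⟩
    · push Not at hsc
      obtain ⟨t, htS, ht⟩ := hsc
      -- eigenvalue of the restriction of t to W
      have hmaps : ∀ w ∈ W, t w ∈ W := hstab t htS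
      let tW : Module.End ℂ W := t.restrict hmaps
      have : Nontrivial W := Submodule.nontrivial_iff_ne_bot.mpr hW
      obtain ⟨c, hc⟩ := Module.End.exists_eigenvalue tW
      obtain ⟨w, hw⟩ := hc.exists_hasEigenvector
      have hw1 : t (w : V) = c • (w : V) := by
        have := hw.apply_eq_smul
        have h2 := congrArg (Subtype.val) this
        simpa [tW] using h2
      have hw0 : (w : V) ≠ 0 := by
        intro h
        exact hw.2 (Subtype.ext h)
      let W' : Submodule ℂ V := W ⊓ LinearMap.ker (t - c • (1 : Module.End ℂ V))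
      have hmem : ∀ x : V, x ∈ W' ↔ x ∈ W ∧ t x = c • x := by
        intro x
        simp only [W', Submodule.mem_inf, LinearMap.mem_ker, LinearMap.sub_apply,
          LinearMap.smul_apply, Module.End.one_apply, sub_eq_zero]
      have hW'ne : W' ≠ ⊥ := by
        intro h
        have : (w : V) ∈ W' := (hmem _).2 ⟨w.2, hw1⟩
        rw [h, Submodule.mem_bot] at this
        exact hw0 this
      have hW'le : W' ≤ W := inf_le_left
      have hW'lt : W' < W := by
        refine lt_of_le_of_ne hW'le ?_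
        intro h
        obtain ⟨x, hxW, hx⟩ := ht c
        have : x ∈ W' := h ▸ hxW
        exact hx ((hmem x).1 this).2
      have hfr : finrank ℂ W' < n := hn ▸ Submodule.finrank_lt_finrank_of_lt hW'lt
      have hstab' : ∀ s ∈ S, ∀ x ∈ W', s x ∈ W' := by
        intro s hs x hx
        obtain ⟨hxW, hxt⟩ := (hmem x).1 hx
        refine (hmem _).2 ⟨hstab s hs x hxW, ?_⟩
        have hst : t (s x) = s (t x) := by
          have := (hcomm t htS s hs).eq
          exact congrArg (fun f : Module.End ℂ V => f x) this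
        rw [hst, hxt, map_smul]
      obtain ⟨v, hvW', hv0, hv⟩ := ih _ hfr W' rfl hW'ne hstab'
      exact ⟨v, hW'le hvW', hv0, hv⟩

/-- Abstract Deligne–Serre lifting lemma. -/
theorem deligneSerre_lift {A : Type*} [CommRing A] [Module.Finite ℤ A]
    {V : Type*} [AddCommGroup V] [Module ℂ V] [FiniteDimensional ℂ V]
    (ι : A →+* Module.End ℂ V) (hι : Function.Injective ι) (J : Ideal A) (hJ : J ≠ ⊤) :
    ∃ (v : V) (χ : A →+* integralClosure ℤ ℂ) (𝔪' : Ideal (integralClosure ℤ ℂ)),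
      v ≠ 0 ∧ (∀ t : A, ι t v = ((χ t : integralClosure ℤ ℂ) : ℂ) • v) ∧ 𝔪'.IsMaximal ∧
        ∀ t ∈ J, χ t ∈ 𝔪' := by
  classical
  have : IsNoetherianRing A := IsNoetherianRing.of_finite ℤ A
  have : Algebra.IsIntegral ℤ A := Algebra.IsIntegral.of_finite ℤ A
  obtain ⟨𝔪, h𝔪max, hJ𝔪⟩ := Ideal.exists_le_maximal J hJ
  have := h𝔪max.isPrime
  obtain ⟨𝔭, h𝔭min, h𝔭𝔪⟩ := Ideal.exists_minimalPrimes_le (I := (⊥ : Ideal A)) (J := 𝔪) bot_le
  have hann : Module.annihilator A A = ⊥ := by
    rw [eq_bot_iff]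
    intro a ha
    have := Module.mem_annihilator.mp ha 1
    simpa using this
  have hass : 𝔭 ∈ associatedPrimes A A :=
    Module.associatedPrimes.minimalPrimes_annihilator_subset_associatedPrimes A A
      (by rw [hann]; exact h𝔭min)
  obtain ⟨h𝔭prime, x, hx⟩ := (isAssociatedPrime_iff).1 hass
  have hmem𝔭 : ∀ t : A, t ∈ 𝔭 ↔ t * x = 0 := by
    intro t
    rw [hx, Submodule.mem_colon_singleton]
    simp
  have hx0 : x ≠ 0 := by
    rintro rfl
    apply h𝔭prime.ne_top
    rw [Ideal.eq_top_iff_one, hmem𝔭]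
    simp
  -- the subspace killed by 𝔭
  let W : Submodule ℂ V := ⨅ t ∈ 𝔭, LinearMap.ker (ι t)
  have hmemW : ∀ v : V, v ∈ W ↔ ∀ t ∈ 𝔭, ι t v = 0 := by
    intro v
    simp [W, Submodule.mem_iInf]
  have hW : W ≠ ⊥ := by
    have hιx : ι x ≠ 0 := by
      intro h
      exact hx0 (hι (by rw [h, map_zero]))
    obtain ⟨v, hv⟩ : ∃ v, ι x v ≠ 0 := by
      by_contra hcon
      push Not at hcon
      exact hιx (LinearMap.ext hcon)
    intro hbot
    have : ι x v ∈ W := by
      rw [hmemW]
      intro t ht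
      have : ι t (ι x v) = ι (t * x) v := by rw [map_mul]; rfl
      rw [this, (hmem𝔭 t).1 ht, map_zero]
      rfl
    rw [hbot, Submodule.mem_bot] at this
    exact hv this
  have hcomm : ∀ s ∈ Set.range ι, ∀ t ∈ Set.range ι, Commute s t := by
    rintro _ ⟨s, rfl⟩ _ ⟨t, rfl⟩
    exact (Commute.all s t).map ι
  have hstab : ∀ t ∈ Set.range ι, ∀ w ∈ W, t w ∈ W := by
    rintro _ ⟨s, rfl⟩ w hw
    rw [hmemW] at hw ⊢
    intro t ht
    have : ι t (ι s w) = ι s (ι t w) := by
      have := (hcomm (ι t) ⟨t, rfl⟩ (ι s) ⟨s, rfl⟩).eq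
      exact congrArg (fun f : Module.End ℂ V => f w) this
    rw [this, hw t ht, map_zero]
  obtain ⟨v, hvW, hv0, hv⟩ := exists_common_eigenvector (Set.range ι) hcomm _ W rfl hW hstab
  have hv' : ∀ t : A, ∃ c : ℂ, ι t v = c • v := fun t => hv (ι t) ⟨t, rfl⟩
  choose χ₀ hχ₀ using hv'
  have huniq : ∀ c d : ℂ, c • v = d • v → c = d := by
    intro c d h
    have : (c - d) • v = 0 := by rw [sub_smul, h, sub_self]
    rcases smul_eq_zero.mp this with h | h
    · exact sub_eq_zero.mp h
    · exact absurd h hv0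
  let χ₁ : A →+* ℂ :=
    { toFun := χ₀
      map_one' := by
        apply huniq
        rw [← hχ₀, map_one, one_smul]
        rfl
      map_mul' := by
        intro s t
        apply huniq
        rw [← hχ₀, map_mul, mul_smul]
        change ι s (ι t v) = _
        rw [hχ₀ t, map_smul, hχ₀ s, smul_comm]
      map_zero' := by
        apply huniq
        rw [← hχ₀, map_zero, zero_smul]
        rfl
      map_add' := by
        intro s t
        apply huniq
        rw [← hχ₀, map_add, add_smul, ← hχ₀, ← hχ₀]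
        rfl }
  have hint : ∀ t : A, χ₁ t ∈ integralClosure ℤ ℂ := by
    intro t
    exact (Algebra.IsIntegral.isIntegral (R := ℤ) t).map χ₁.toIntAlgHom
  let χ : A →+* integralClosure ℤ ℂ := χ₁.codRestrict (integralClosure ℤ ℂ).toSubring hint
  have hχ : ∀ t : A, ((χ t : integralClosure ℤ ℂ) : ℂ) = χ₀ t := fun t => rfl
  -- kernel of χ is 𝔭
  have hker_ge : 𝔭 ≤ RingHom.ker χ := by
    intro t ht
    rw [RingHom.mem_ker]
    apply Subtype.ext
    rw [hχ]
    apply huniq
    rw [← hχ₀, (hmemW v).1 hvW t ht]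
    simp
  have : (RingHom.ker χ).IsPrime := RingHom.ker_isPrime χ
  have hker : RingHom.ker χ = 𝔭 := by
    by_contra hne
    have hlt : 𝔭 < RingHom.ker χ := lt_of_le_of_ne hker_ge (Ne.symm hne)
    obtain ⟨y, hyker, hy𝔭⟩ := Set.exists_of_ssubset hlt
    have := Ideal.comap_lt_comap_of_integral_mem_sdiff (R := ℤ) hker_ge (x := y) ⟨hyker, hy𝔭⟩
      (Algebra.IsIntegral.isIntegral (R := ℤ) y)
    have hbot : Ideal.comap (algebraMap ℤ A) (RingHom.ker χ) = ⊥ := by
      rw [eq_bot_iff]
      intro m hm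
      rw [Ideal.mem_comap, RingHom.mem_ker] at hm
      have h2 : ((χ (algebraMap ℤ A m) : integralClosure ℤ ℂ) : ℂ) = (m : ℂ) := by
        simp
      rw [hm] at h2
      simp only [ZeroMemClass.coe_zero] at h2
      have : m = 0 := by exact_mod_cast h2.symm
      simp [this]
    rw [hbot] at this
    exact not_lt_bot this
  -- lying over
  let : Algebra A (integralClosure ℤ ℂ) := χ.toAlgebra
  have : IsScalarTower ℤ A (integralClosure ℤ ℂ) := IsScalarTower.of_algebraMap_eq' (RingHom.ext_int _ _)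
  have : Algebra.IsIntegral ℤ (integralClosure ℤ ℂ) := inferInstance
  have : Algebra.IsIntegral A (integralClosure ℤ ℂ) := Algebra.IsIntegral.tower_top ℤ
  obtain ⟨Q, -, hQprime, hQ⟩ := Ideal.exists_ideal_over_prime_of_isIntegral 𝔪
    (⊥ : Ideal (integralClosure ℤ ℂ)) (by
      change RingHom.ker χ ≤ 𝔪
      rw [hker]; exact h𝔭𝔪)
  obtain ⟨𝔪', h𝔪'max, hQ𝔪'⟩ := Ideal.exists_le_maximal Q hQprime.ne_top
  refine ⟨v, χ, 𝔪', hv0, fun t => by rw [hχ, hχ₀], h𝔪'max, ?_⟩
  intro t ht
  apply hQ𝔪'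
  have : t ∈ Ideal.comap (algebraMap A (integralClosure ℤ ℂ)) Q := by
    rw [hQ]; exact hJ𝔪 ht
  exact this

end Fermat.Agent.S49Lib
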