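import Mathlib
import Fermat.Prelude.Def_FormalHecke_Eigensystem

set_option autoImplicit false

namespace Fermat.Agent.S49Lib

open FormalHecke

variable {R : Type*} [CommRing R]

/-- A formal eigensystem is multiplicative on coprime arguments. -/
theorem isEigensystem_mul_of_coprime {e a : ℕ → R} (h : IsEigensystem e a) :
    ∀ m n : ℕ, m.Coprime n → a (m * n) = a m * a n := by
  obtain ⟨h1, hrec⟩ := h
  intro m
  induction m using Nat.strong_induction_on with
  | _ m ih =>
    intro n hmn
    rcases Nat.lt_or_ge m 2 with hm | hm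
    · interval_cases m
      · have hn : n = 1 := by simpa using hmn
        subst hn
        simp [h1]
      · simp [h1]
    · -- m = ℓ * m'
      set ℓ := m.minFac with hℓdef
      have hℓ : ℓ.Prime := Nat.minFac_prime (by omega)
      obtain ⟨m', hm'⟩ : ℓ ∣ m := Nat.minFac_dvd m
      have hm'pos : 0 < m' := by
        rcases Nat.eq_zero_or_pos m' with h0 | h0
        · subst h0; omega
        · exact h0
      have hm'lt : m' < m := by
        rw [hm']
        exact lt_mul_of_one_lt_left hm'pos hℓ.one_lt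
      have hcop' : m'.Coprime n := Nat.Coprime.coprime_dvd_left ⟨ℓ, by rw [hm', mul_comm]⟩ hmn
      have hℓn : ¬ ℓ ∣ n := by
        intro hdvd
        have : ℓ ∣ Nat.gcd m n := Nat.dvd_gcd (Nat.minFac_dvd m) hdvd
        rw [hmn] at this
        exact hℓ.one_lt.ne' (Nat.dvd_one.mp this)
      have e1 := hrec ℓ hℓ (m' * n)
      have e2 := hrec ℓ hℓ m'
      have hmul : a (m' * n) = a m' * a n := ih m' hm'lt n hcop'
      have hdvd_iff : ℓ ∣ m' * n ↔ ℓ ∣ m' := by
        constructor
        · intro hd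
          exact (hℓ.dvd_mul.mp hd).resolve_right hℓn
        · intro hd
          exact Dvd.dvd.mul_right hd n
      rw [hm', mul_assoc]
      by_cases hd : ℓ ∣ m'
      · have hd' : ℓ ∣ m' * n := hdvd_iff.mpr hd
        rw [if_pos hd'] at e1
        rw [if_pos hd] at e2
        obtain ⟨m'', hm''⟩ := hd
        have hm''lt : m'' < m := by
          have : m'' ≤ m' := by
            rw [hm'']
            exact Nat.le_mul_of_pos_left _ hℓ.pos
          omega
        have hcop'' : m''.Coprime n :=
          Nat.Coprime.coprime_dvd_left ⟨ℓ, by rw [hm'', mul_comm]⟩ hcop'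
        have hdiv1 : m' * n / ℓ = m'' * n := by
          rw [hm'', mul_assoc, Nat.mul_div_cancel_left _ hℓ.pos]
        have hdiv2 : m' / ℓ = m'' := by
          rw [hm'', Nat.mul_div_cancel_left _ hℓ.pos]
        rw [hdiv1, ih m'' hm''lt n hcop'', hmul] at e1
        rw [hdiv2] at e2
        linear_combination e1 - a n * e2
      · have hd' : ¬ ℓ ∣ m' * n := fun h => hd (hdvd_iff.mp h)
        rw [if_neg hd'] at e1
        rw [if_neg hd] at e2
        rw [hmul] at e1
        linear_combination e1 - a n * e2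

/-- Prime power recursion of a formal eigensystem. -/
theorem isEigensystem_prime_pow {e a : ℕ → R} (h : IsEigensystem e a) (ℓ r : ℕ) (hℓ : ℓ.Prime) :
    a (ℓ ^ (r + 2)) = a ℓ * a (ℓ ^ (r + 1)) - e ℓ * a (ℓ ^ r) := by
  have e1 := h.2 ℓ hℓ (ℓ ^ (r + 1))
  have hd : ℓ ∣ ℓ ^ (r + 1) := dvd_pow_self _ (by omega)
  rw [if_pos hd] at e1
  have h1 : ℓ * ℓ ^ (r + 1) = ℓ ^ (r + 2) := by ring
  have h2 : ℓ ^ (r + 1) / ℓ = ℓ ^ r := by
    rw [pow_succ, Nat.mul_div_cancel _ hℓ.pos]
  rw [h1, h2] at e1
  linear_combination e1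

/-- If a sequence satisfies the Hecke recursions with eigenvalues `lam` and `b 0 = b 1 = 0`,
then it vanishes. -/
theorem eq_zero_of_hecke_rec {e lam b : ℕ → R} (h0 : b 0 = 0) (h1 : b 1 = 0)
    (hrec : ∀ ℓ : ℕ, ℓ.Prime → ∀ n : ℕ,
      b (ℓ * n) + e ℓ * (if ℓ ∣ n then b (n / ℓ) else 0) = lam ℓ * b n) :
    ∀ n, b n = 0 := by
  intro n
  induction n using Nat.strong_induction_on with
  | _ n ih =>
    rcases Nat.lt_or_ge n 2 with hn | hn
    · interval_cases n
      · exact h0
      · exact h1
    · set ℓ := n.minFac with hℓdef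
      have hℓ : ℓ.Prime := Nat.minFac_prime (by omega)
      obtain ⟨m, hm⟩ : ℓ ∣ n := Nat.minFac_dvd n
      have hmpos : 0 < m := by
        rcases Nat.eq_zero_or_pos m with h0 | h0
        · subst h0; omega
        · exact h0
      have hmlt : m < n := by
        rw [hm]
        exact lt_mul_of_one_lt_left hmpos hℓ.one_lt
      have e1 := hrec ℓ hℓ m
      rw [ih m hmlt] at e1
      have hdiv : m / ℓ < n := lt_of_le_of_lt (Nat.div_le_self _ _) hmlt
      rw [ih _ hdiv] at e1
      rw [hm]
      simpa using e1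

end Fermat.Agent.S49Lib
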