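import Fermat.Agent.S49.QCoeff

set_option autoImplicit false

namespace Fermat.Agent.S49Lib

open CongruenceSubgroup ModularFormClass UpperHalfPlane EisensteinWeightOne

variable {N : ℕ} [NeZero N]

/-- Restriction of a Hecke operator to the integral lattice. -/
noncomputable def heckeRestrict (N : ℕ) [NeZero N] :
    CuspForm.heckeAlgebra N 2 ∅ →ₗ[ℤ] (intSub N →ₗ[ℤ] intSub N) where
  toFun t := ((t : Module.End ℂ (CuspForm (Gamma0 N) 2)).restrictScalars ℤ).restrict
    (p := intSub N) (fun _ hf => hecke_mem_intSub t.2 hf)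
  map_add' s t := by
    ext f
    rfl
  map_smul' c t := by
    ext f
    rfl

theorem heckeRestrict_injective (h : CuspForm.HasIntegralBasis N) :
    Function.Injective (heckeRestrict N) := by
  intro s t hst
  apply Subtype.ext
  unfold CuspForm.HasIntegralBasis at h
  rw [qIntegralSet_eq_intSub] at h
  apply LinearMap.ext_on h
  intro f hf
  have := congrArg (fun r : intSub N →ₗ[ℤ] intSub N => ((r ⟨f, hf⟩ : intSub N) :
    CuspForm (Gamma0 N) 2)) hst
  exact this

theorem heckeAlgebra_finite (h : CuspForm.HasIntegralBasis N) :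
    Module.Finite ℤ (CuspForm.heckeAlgebra N 2 ∅) := by
  have : Module.Finite ℤ (intSub N) := Module.Finite.iff_fg.2 (intSub_fg N)
  have : IsAddTorsionFree (CuspForm (Gamma0 N) 2) := by
    refine ⟨fun n hn a b hab => ?_⟩
    have h' : (n : ℂ) • a = (n : ℂ) • b := by
      simp only [Nat.cast_smul_eq_nsmul]
      exact hab
    exact smul_right_injective _ (Nat.cast_ne_zero.mpr hn) h'
  have : Module.Free ℤ (intSub N) := inferInstance
  have : Module.Finite ℤ (intSub N →ₗ[ℤ] intSub N) := Module.Finite.linearMap ℤ ℤ _ _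
  exact Module.Finite.of_injective (heckeRestrict N) (heckeRestrict_injective h)

/-- The annihilator of `f₀` modulo `3`. -/
def annIdeal (f₀ : CuspForm (Gamma0 N) 2) : Ideal (CuspForm.heckeAlgebra N 2 ∅) where
  carrier := {t | ∃ g ∈ intSub N, (t : Module.End ℂ (CuspForm (Gamma0 N) 2)) f₀ = (3 : ℂ) • g}
  add_mem' := by
    rintro s t ⟨g, hg, hs⟩ ⟨g', hg', ht⟩
    refine ⟨g + g', add_mem hg hg', ?_⟩
    rw [smul_add, ← hs, ← ht]
    rfl
  zero_mem' := ⟨0, zero_mem _, by simp⟩
  smul_mem' := by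
    rintro s t ⟨g, hg, ht⟩
    refine ⟨(s : Module.End ℂ (CuspForm (Gamma0 N) 2)) g, hecke_mem_intSub s.2 hg, ?_⟩
    rw [← map_smul, ← ht]
    rfl

theorem mem_annIdeal {f₀ : CuspForm (Gamma0 N) 2} {t : CuspForm.heckeAlgebra N 2 ∅} :
    t ∈ annIdeal f₀ ↔
      ∃ g ∈ intSub N, (t : Module.End ℂ (CuspForm (Gamma0 N) 2)) f₀ = (3 : ℂ) • g := Iff.rfl

/-- `E₁^{χ₋₃} ≡ 1 mod 3`, so the bridge product is congruent to the original sequence. -/
theorem three_dvd_bridgeProduct_sub (a : ℕ → ℤ) (n : ℕ) :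
    (3 : ℤ) ∣ (bridgeProduct a).coeff n - a n := by
  have hE : e1Chi3In ℤ = 1 + PowerSeries.C (3 : ℤ) *
      PowerSeries.mk (fun n => if n = 0 then 0 else 2 * sigmaChi n) := by
    ext k
    simp only [e1Chi3In, e1Chi3, PowerSeries.coeff_map, PowerSeries.coeff_mk, map_add,
      PowerSeries.coeff_one, PowerSeries.coeff_C_mul, Int.coe_castRingHom, Int.cast_id]
    split_ifs <;> ring
  unfold bridgeProduct
  rw [hE, mul_add, mul_one, map_add, PowerSeries.coeff_mk, add_sub_cancel_left,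
    mul_left_comm, PowerSeries.coeff_C_mul]
  exact Dvd.intro _ rfl

theorem chiNegThree_congr (ℓ : ℕ) : (3 : ℤ) ∣ (ℓ : ℤ) - chiNegThree ℓ := by
  unfold chiNegThree
  have h3 : ℓ % 3 < 3 := Nat.mod_lt _ (by norm_num)
  split_ifs with h1 h2 <;> omega

end Fermat.Agent.S49Lib
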